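import Mathlib

/-!
# Kummer descent under a unique valuation extension (leaf (1) of the S18 chain)

`F ⊆ F'` fields, `O'` a valuation subring of `F'` which is the unique valuation subring of `F'`
lying over `O = O' ∩ F`.  If `F` contains a primitive `m`-th root of unity, `m` is a unit of `O`,
`w ∈ F'` satisfies `w ^ m = f ∈ F` with `f` a unit of `O` whose residue class is an `m`-th power
in the residue field of `O`, then `w ∈ F`.
-/

namespace Fermat.Agent.S18.KummerDescent

open Polynomial IntermediateField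

variable {F F' : Type*} [Field F] [Field F']

/-- Chevalley's extension theorem along a field homomorphism. -/
theorem exists_comap_eq (i : F →+* F') (V : ValuationSubring F) :
    ∃ V' : ValuationSubring F', V'.comap i = V := by
  obtain ⟨A, h, hloc⟩ := IsLocalRing.exists_factor_valuationRing (R := V) (i.comp V.subtype)
  refine ⟨A, ?_⟩
  ext x
  rw [ValuationSubring.mem_comap]
  constructor
  · intro hx
    by_contra hxV
    have hx0 : x ≠ 0 := fun h0 => hxV (h0 ▸ V.zero_mem)
    have hinv : x⁻¹ ∈ V := (V.mem_or_inv_mem x).resolve_left hxV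
    have hunit : IsUnit ((i.comp V.subtype).codRestrict A.toSubring h ⟨x⁻¹, hinv⟩) := by
      refine isUnit_iff_exists_inv.mpr ⟨⟨i x, hx⟩, Subtype.ext ?_⟩
      simp [hx0]
    have := hloc.map_nonunit _ hunit
    obtain ⟨⟨y, hy⟩, hy'⟩ := isUnit_iff_exists_inv.mp this
    have : x⁻¹ * y = 1 := by simpa [Subtype.ext_iff] using hy'
    have hyx : y = x := by
      field_simp at this
      exact this
    exact hxV (hyx ▸ hy)
  · intro hx
    exact h ⟨x, hx⟩

variable [Algebra F F']

/-- If `O'` is the unique valuation subring of `F'` over `O' ∩ F`, every `F`-embedding of an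
intermediate field into `F'` preserves `O'`. -/
theorem mem_iff_of_unique (O' : ValuationSubring F')
    (huniq : ∀ O'' : ValuationSubring F',
      O''.comap (algebraMap F F') = O'.comap (algebraMap F F') → O'' = O')
    (E : IntermediateField F F') (σ : E →ₐ[F] F') (x : E) :
    σ x ∈ O' ↔ (x : F') ∈ O' := by
  obtain ⟨V₂', hV₂'⟩ := exists_comap_eq (algebraMap E F') (O'.comap (σ : E →+* F'))
  have h1 : V₂'.comap (algebraMap F F') = O'.comap (algebraMap F F') := by
    have e1 : algebraMap F F' = (algebraMap E F').comp (algebraMap F E) := by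
      ext y; rfl
    have e2 : algebraMap F F' = (σ : E →+* F').comp (algebraMap F E) := by
      ext y; simp
    calc V₂'.comap (algebraMap F F')
        = (V₂'.comap (algebraMap E F')).comap (algebraMap F E) := by
          rw [ValuationSubring.comap_comap, ← e1]
      _ = (O'.comap (σ : E →+* F')).comap (algebraMap F E) := by rw [hV₂']
      _ = O'.comap (algebraMap F F') := by rw [ValuationSubring.comap_comap, ← e2]
  have h2 := huniq V₂' h1
  subst h2
  have := congrArg (fun V : ValuationSubring E => x ∈ V) hV₂'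
  simp only [ValuationSubring.mem_comap] at this
  exact (Iff.of_eq this).symm

/-- `v y < 1` transported through an `F`-embedding of an intermediate field. -/
theorem valuation_lt_one_iff_of_unique (O' : ValuationSubring F')
    (huniq : ∀ O'' : ValuationSubring F',
      O''.comap (algebraMap F F') = O'.comap (algebraMap F F') → O'' = O')
    (E : IntermediateField F F') (σ : E →ₐ[F] F') (x : E) :
    O'.valuation (σ x) < 1 ↔ O'.valuation (x : F') < 1 := by
  by_cases hx : x = 0
  · simp [hx]
  have hσx : σ x ≠ 0 := (map_ne_zero_iff σ σ.injective).mpr hx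
  have hx' : (x : F') ≠ 0 := fun h => hx (Subtype.ext h)
  have key : ∀ y : F', y ≠ 0 → (O'.valuation y < 1 ↔ ¬ y⁻¹ ∈ O') := by
    intro y hy
    rw [← ValuationSubring.valuation_le_one_iff, map_inv₀, not_le,
      one_lt_inv₀ (zero_lt_iff.mpr (O'.valuation.ne_zero_iff.mpr hy))]
  rw [key _ hσx, key _ hx']
  have := mem_iff_of_unique O' huniq E σ x⁻¹
  rw [map_inv₀] at this
  exact not_congr this

/-- **Kummer descent.** -/
theorem mem_range_of_pow_eq (O' : ValuationSubring F')
    (huniq : ∀ O'' : ValuationSubring F',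
      O''.comap (algebraMap F F') = O'.comap (algebraMap F F') → O'' = O')
    {m : ℕ} (hm0 : 0 < m) {ζ : F} (hζ : IsPrimitiveRoot ζ m)
    (hm : O'.valuation ((m : F')) = 1)
    {w : F'} {f g : F} (hw : w ^ m = algebraMap F F' f)
    (hf : O'.valuation (algebraMap F F' f) = 1)
    (hfg : O'.valuation (algebraMap F F' (f - g ^ m)) < 1) :
    w ∈ (algebraMap F F').range := by
  classical
  set v := O'.valuation with hv
  set i := algebraMap F F' with hi
  have hinj : Function.Injective i := (algebraMap F F').injective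
  have hζ' : IsPrimitiveRoot (i ζ) m := hζ.map_of_injective hinj
  have : NeZero m := ⟨hm0.ne'⟩
  have hpow1 : ∀ a : F', v a ^ m = 1 → v a = 1 := fun a ha =>
    (pow_eq_one_iff_of_nonneg zero_le hm0.ne').mp ha
  have hvw : v w = 1 := hpow1 w (by rw [← map_pow, hw, hf])
  have hvg : v (i g) = 1 := by
    apply hpow1
    have h1 : i (g ^ m) = i f - i (f - g ^ m) := by simp
    rw [← map_pow, ← map_pow, h1]
    exact (Valuation.map_sub_eq_of_lt_left v (by rw [hf]; exact hfg)).trans hf
  have hvζ : ∀ k : ℕ, v (i ζ ^ k) = 1 := by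
    intro k
    have : v (i ζ) = 1 := hpow1 _ (by rw [← map_pow, hζ'.pow_eq_one, map_one])
    rw [map_pow, this, one_pow]
  -- some `w - ζ^k g` is in the maximal ideal
  have hprod : w ^ m - i g ^ m = ∏ k ∈ Finset.range m, (w - i ζ ^ k * i g) := by
    have := congrArg (Polynomial.eval w) (X_pow_sub_C_eq_prod hζ' hm0 (rfl : i g ^ m = i g ^ m))
    simpa [Polynomial.eval_prod] using this
  obtain ⟨k, hk⟩ : ∃ k : ℕ, v (w - i ζ ^ k * i g) < 1 := by
    by_contra hcon
    push Not at hcon
    have hone : ∀ k ∈ Finset.range m, v (w - i ζ ^ k * i g) = 1 := by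
      intro k _
      refine le_antisymm ?_ (hcon k)
      refine Valuation.map_sub_le v hvw.le ?_
      rw [map_mul, hvζ, hvg, one_mul]
    have h2 : v (w ^ m - i g ^ m) = 1 := by
      rw [hprod, map_prod, Finset.prod_eq_one hone]
    have h3 : w ^ m - i g ^ m = i (f - g ^ m) := by rw [hw]; simp
    rw [h3] at h2
    exact absurd h2 hfg.ne
  set g₀ : F := ζ ^ k * g with hg₀
  have hk' : v (w - i g₀) < 1 := by simpa [hg₀] using hk
  -- now the Galois argument
  by_contra hnot
  have hf0 : f ≠ 0 := by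
    intro h0
    rw [h0, map_zero, map_zero] at hf
    exact zero_ne_one hf
  have hw0 : w ≠ 0 := by
    intro h0
    rw [h0, map_zero] at hvw
    exact zero_ne_one hvw
  have hroot : Polynomial.aeval w (X ^ m - C f : F[X]) = 0 := by simp [hw, hi]
  have hmonic : (X ^ m - C f : F[X]).Monic := monic_X_pow_sub_C f hm0.ne'
  have hint : IsIntegral F w := ⟨_, hmonic, by simpa [Polynomial.aeval_def] using hroot⟩
  have hdvd : minpoly F w ∣ (X ^ m - C f : F[X]) := minpoly.dvd F w hroot
  -- the roots of `X^m - f` in `F'`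
  have hsplit : ((X ^ m - C f : F[X]).map i) = ∏ j ∈ Finset.range m, (X - C (i ζ ^ j * w)) := by
    have := X_pow_sub_C_eq_prod hζ' hm0 hw
    simpa using this
  have hmF : (m : F) ≠ 0 := by
    intro h0
    have : (m : F') = 0 := by
      have := congrArg i h0
      simpa using this
    rw [this, map_zero] at hm
    exact zero_ne_one hm
  have hsepF : (X ^ m - C f : F[X]).Separable := separable_X_pow_sub_C f hmF hf0
  have hsep : IsSeparable F w := hsepF.of_dvd hdvd
  have hsplits : ((minpoly F w).map i).Splits := by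
    have h1 : ((X ^ m - C f : F[X]).map i).Splits := by
      rw [hsplit]
      exact Splits.prod fun j _ => Splits.X_sub_C _
    exact h1.of_dvd (Polynomial.map_ne_zero hmonic.ne_zero) (Polynomial.map_dvd i hdvd)
  have hdeg : 2 ≤ (minpoly F w).natDegree := by
    by_contra h
    have h1 : (minpoly F w).natDegree = 1 := by
      have := minpoly.natDegree_pos hint
      omega
    refine hnot (minpoly.mem_range_of_degree_eq_one F w ?_)
    rw [degree_eq_natDegree (minpoly.ne_zero hint), h1]
    rfl
  have hcard : Nat.card (F⟮w⟯ →ₐ[F] F') = (minpoly F w).natDegree :=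
    card_algHom_adjoin_integral F hint hsep hsplits
  -- an embedding different from the inclusion
  have : Finite (F⟮w⟯ →ₐ[F] F') := Nat.finite_of_card_ne_zero (by omega)
  obtain ⟨σ, hσ⟩ : ∃ σ : F⟮w⟯ →ₐ[F] F', σ ≠ (F⟮w⟯).val := by
    by_contra hcon
    push Not at hcon
    have : Subsingleton (F⟮w⟯ →ₐ[F] F') := ⟨fun a b => (hcon a).trans (hcon b).symm⟩
    have := Nat.card_of_subsingleton (F⟮w⟯).val
    omega
  set w₂ := σ (AdjoinSimple.gen F w) with hw₂
  have hw₂ne : w₂ ≠ w := by
    intro h
    apply hσ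
    refine (adjoin.powerBasis hint).algHom_ext ?_
    rw [adjoin.powerBasis_gen]
    simpa using h
  have hgen : ((AdjoinSimple.gen F w : F⟮w⟯) : F') = w := AdjoinSimple.coe_gen F w
  have hw₂m : w₂ ^ m = i f := by
    have h1 : (AdjoinSimple.gen F w : F⟮w⟯) ^ m = algebraMap F F⟮w⟯ f := by
      apply Subtype.ext
      rw [SubmonoidClass.coe_pow, hgen, hw]
      rfl
    rw [hw₂, ← map_pow, h1, σ.commutes]
  have hvw₂ : v w₂ = 1 := hpow1 w₂ (by rw [← map_pow, hw₂m, hf])
  -- `w₂ ≡ g₀` as well
  have hk₂ : v (w₂ - i g₀) < 1 := by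
    have h1 := (valuation_lt_one_iff_of_unique O' huniq F⟮w⟯ σ
      (AdjoinSimple.gen F w - algebraMap F F⟮w⟯ g₀)).mpr (by
        rw [AddSubgroupClass.coe_sub, hgen]
        exact hk')
    rwa [map_sub, σ.commutes] at h1
  have hdiff : v (w₂ - w) < 1 := by
    have : w₂ - w = (w₂ - i g₀) - (w - i g₀) := by ring
    rw [this]
    exact Valuation.map_sub_lt v hk₂ hk'
  set ζ₂ : F' := w₂ / w with hζ₂
  have hζ₂m : ζ₂ ^ m = 1 := by
    rw [hζ₂, div_pow, hw₂m, hw, div_self]
    rw [← hw]
    exact pow_ne_zero _ hw0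
  have hζ₂ne : ζ₂ ≠ 1 := by
    intro h
    apply hw₂ne
    rw [hζ₂, div_eq_one_iff_eq hw0] at h
    exact h
  have hvζ₂ : v ζ₂ = 1 := by rw [hζ₂, map_div₀, hvw₂, hvw, div_one]
  have hvζ₂1 : v (ζ₂ - 1) < 1 := by
    have : ζ₂ - 1 = (w₂ - w) / w := by
      rw [hζ₂]; field_simp
    rw [this, map_div₀, hvw, div_one]
    exact hdiff
  have hsum0 : ∑ j ∈ Finset.range m, ζ₂ ^ j = 0 := by
    have h1 := mul_geom_sum ζ₂ m
    rw [hζ₂m, sub_self] at h1
    exact (mul_eq_zero.mp h1).resolve_left (sub_ne_zero.mpr hζ₂ne)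
  have hmsum : (m : F') = ∑ j ∈ Finset.range m, (1 - ζ₂ ^ j) := by
    rw [Finset.sum_sub_distrib, hsum0, sub_zero]
    simp
  have hlt : ∀ j ∈ Finset.range m, v (1 - ζ₂ ^ j) < 1 := by
    intro j _
    have h1 : 1 - ζ₂ ^ j = -((ζ₂ - 1) * ∑ l ∈ Finset.range j, ζ₂ ^ l) := by
      rw [mul_geom_sum]; ring
    rw [h1, Valuation.map_neg, map_mul]
    have h2 : v (∑ l ∈ Finset.range j, ζ₂ ^ l) ≤ 1 := by
      refine Valuation.map_sum_le v fun l _ => ?_
      rw [map_pow, hvζ₂, one_pow]
    calc v (ζ₂ - 1) * v (∑ l ∈ Finset.range j, ζ₂ ^ l) ≤ v (ζ₂ - 1) * 1 := by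
          gcongr
      _ < 1 := by rw [mul_one]; exact hvζ₂1
  have : v (m : F') < 1 := by
    rw [hmsum]
    exact Valuation.map_sum_lt v one_ne_zero hlt
  exact absurd hm this.ne

end Fermat.Agent.S18.KummerDescent
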